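import Mathlib

/-!
# Cluster B / GoodRed: abstract reduction datum and the statements of the "discriminant chain"
Architect: helper37.  Blueprint: NOTES/blueprint-B-GoodRed.md.  Namespace `Fermat.Agent.S27GR`.
ONLY definitions here (no theorem, no `sorry`).  Provers end their files with
`theorem ... : <Prop defined here>`; consumers take the `Prop` as a hypothesis.

`RedModel K k F Fk` = a function field `F/K` with a "Gauss" valuation ring `O` of `F` lying over
a valuation ring `A` of `K`, with residue field the function field `Fk/k`, value group of `O` =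
value group of `A`, and a base parameter `x ∈ O` whose reduction is transcendental.
(For us: `K = ℚ̄`, `A` a place over `ℓ`, `F = modularFunctionFieldBar N`, `O` = Gauss ring of
`q`-expansions (helper5 / helper66), `Fk = modularFunctionFieldFullC k N`, `x = j`, or the
Hauptmodul of `X₀(3)`, `X₀(2)` when `ℓ = 2, 3`.)
-/

set_option autoImplicit false

namespace Fermat.Agent.S27GR

open Polynomial

noncomputable section

/-- Abstract reduction datum. -/
structure RedModel (K k F Fk : Type*) [Field K] [Field k] [Field F] [Field Fk]
    [Algebra K F] [Algebra k Fk] where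
  /-- the valuation ring of the constant field -/
  A : ValuationSubring K
  /-- its residue map -/
  res : A →+* k
  res_surj : Function.Surjective res
  res_eq_zero : ∀ a : A, res a = 0 ↔ ¬ IsUnit a
  /-- the Gauss valuation ring of `F` -/
  O : ValuationSubring F
  /-- its residue map onto the reduced function field -/
  rho : O →+* Fk
  rho_surj : Function.Surjective rho
  rho_eq_zero : ∀ f : O, rho f = 0 ↔ ¬ IsUnit f
  map_mem : ∀ a : A, algebraMap K F a ∈ O
  rho_map : ∀ a : A, rho ⟨algebraMap K F a, map_mem a⟩ = algebraMap k Fk (res a)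
  /-- the value group of `O` is the value group of `A`: every `f ≠ 0` is `c⁻¹ • unit` -/
  val : ∀ f : F, f ≠ 0 → ∃ c : K, c ≠ 0 ∧ ∃ h : algebraMap K F c * f ∈ O, IsUnit (⟨_, h⟩ : O)
  /-- the base parameter -/
  x : F
  x_mem : x ∈ O
  x_trans : Transcendental k (rho ⟨x, x_mem⟩)

variable {K k F Fk : Type*} [Field K] [Field k] [Field F] [Field Fk] [Algebra K F] [Algebra k Fk]

namespace RedModel

variable (M : RedModel K k F Fk)

/-- the reduced base parameter -/
def xbar : Fk := M.rho ⟨M.x, M.x_mem⟩

end RedModel

/-- `f` is integral over `K[x]` (no `Algebra K[X] F` instance needed). -/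
def IsIntOver (x f : F) : Prop :=
  (Polynomial.aeval (R := K) x : K[X] →ₐ[K] F).toRingHom.IsIntegralElem f

variable (K) in
/-- The integral closure of `K[x]` in `F`, as a `K`-subalgebra of `F`
(= functions without poles outside the poles of `x`). -/
def intCl (x : F) : Subalgebra K F :=
  (integralClosure (Algebra.adjoin K {x}) F).restrictScalars K

variable (K) in
/-- Number of points of the affine curve `Spec (intCl K x)` over `x = c`
(`K` algebraically closed: = number of places of `F` at which `x - c` vanishes). -/
def fibreCard (x : F) (c : K) : ℕ :=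
  Nat.card {χ : intCl K x →ₐ[K] K // ∀ h : x ∈ intCl K x, χ ⟨x, h⟩ = c}

/-- BRANCH hypothesis for `F / K(x)` relative to `A`: outside a finite set `S ⊆ A` of branch
values with pairwise distinct residues all fibres have `n` points. -/
structure BranchData (M : RedModel K k F Fk) (n : ℕ) where
  S : Finset K
  S_mem : ∀ c ∈ S, c ∈ M.A
  S_inj : ∀ c ∈ S, ∀ c' ∈ S, ∀ (hc : c ∈ M.A) (hc' : c' ∈ M.A),
    M.res ⟨c, hc⟩ = M.res ⟨c', hc'⟩ → c = c'
  unram : ∀ c : K, c ∉ S → fibreCard K M.x c = n

/-- DEGREE hypothesis: `[F : K(x)] = n = [Fk : k(x̄)]`, `Fk / k(x̄)` separable. -/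
structure DegData (M : RedModel K k F Fk) (n : ℕ) : Prop where
  deg : Module.finrank (IntermediateField.adjoin K {M.x}) F = n
  degk : Module.finrank (IntermediateField.adjoin k {M.xbar}) Fk = n
  sepk : Algebra.IsSeparable (IntermediateField.adjoin k {M.xbar}) Fk
  pos : 0 < n

/-- (NORM) the reduction of the integral functions is integrally closed:
every `y ∈ Fk` integral over `k[x̄]` is the reduction of an `f ∈ O` integral over `K[x]`. -/
def NormalReduction (M : RedModel K k F Fk) : Prop :=
  ∀ y : Fk, y ∈ intCl k M.xbar → ∃ f : M.O, (f : F) ∈ intCl K M.x ∧ M.rho f = y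

/-- (FIB) fibre bound: the fibre of the reduced curve over `c̄` has at most as many points as
the fibre over ANY lift `c ∈ A`. -/
def FibreBound (M : RedModel K k F Fk) : Prop :=
  ∀ (c : K) (hc : c ∈ M.A), fibreCard k M.xbar (M.res ⟨c, hc⟩) ≤ fibreCard K M.x c

/-- MAIN THEOREM of the discriminant chain (finite part), as a `Prop`:
for algebraically closed `K` (char 0) and `k`, DEGREE + BRANCH imply NORM and FIB. -/
def DiscChain : Prop :=
  ∀ (K k F Fk : Type*) [Field K] [Field k] [Field F] [Field Fk] [Algebra K F] [Algebra k Fk]
    [IsAlgClosed K] [CharZero K] [IsAlgClosed k]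
    (M : RedModel K k F Fk) (n : ℕ), DegData M n → BranchData M n →
      NormalReduction M ∧ FibreBound M

end

end Fermat.Agent.S27GR
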