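import Fermat.Agent.MUL.Orig.S27.GR.Steps
import Fermat.Agent.MUL.E.Desc.Comm.Degree

/-!
# Cluster B / GoodRed, work package (T): reduction of characteristic polynomials (helper77)

`theorem charpolyRed (M : RedModel K k F Fk) (n) (hD : DegData M n) : CharpolyRed M` (for infinite `K`).

Steps (blueprint NOTES/blueprint-B-GoodRed.md, section 2 (T)):
* `O ∩ K = A`; Gauss lemma: every `P ≠ 0` in `K[X]` is `c • P₀`, `P₀ ∈ A[X]` with nonzero reduction,
  and then `P₀(x)` is a unit of `O`; `x` is transcendental over `K`;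
* the reduction of `O ∩ K(x)` lies in `k(x̄)`;
* lifts `w` of a `k(x̄)`-basis of `Fk` form a `K(x)`-basis of `F`; the coordinates of `y ∈ O` lie in
  `O` and reduce to the coordinates of `ρ y`;
* hence the matrix of `f ∈ O` reduces to the matrix of `ρ f`, and so does its characteristic
  polynomial;
* if `f` is integral over `K[x]`, the coefficients of its characteristic polynomial are in `K[x]`
  (values at constants are norms, hence integral; Lagrange interpolation), hence in `A[x]`.
-/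

set_option autoImplicit false

namespace Fermat.Agent.S27GR

open Polynomial IntermediateField
open scoped IntermediateField.algebraAdjoinAdjoin

noncomputable section

variable {K k F Fk : Type*} [Field K] [Field k] [Field F] [Field Fk] [Algebra K F] [Algebra k Fk]

namespace RedModel

variable (M : RedModel K k F Fk)

/-! ### Basic facts on the two valuation rings -/

/-- The inclusion `A → O`. -/
def incl : M.A →+* M.O where
  toFun a := ⟨algebraMap K F a, M.map_mem a⟩
  map_one' := by ext; simp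
  map_mul' a b := by ext; simp
  map_zero' := by ext; simp
  map_add' a b := by ext; simp

@[simp] lemma coe_incl (a : M.A) : ((M.incl a : M.O) : F) = algebraMap K F a := rfl

lemma rho_incl (a : M.A) : M.rho (M.incl a) = algebraMap k Fk (M.res a) := M.rho_map a

/-- Evaluation of polynomials over `A` at `x`, with values in `O`. -/
def evO : Polynomial M.A →+* M.O := Polynomial.eval₂RingHom M.incl ⟨M.x, M.x_mem⟩

lemma coe_evO (P : Polynomial M.A) :
    ((M.evO P : M.O) : F) = Polynomial.aeval M.x (P.map M.A.subtype) := by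
  have h : (M.O.subtype.comp M.evO : Polynomial M.A →+* F) =
      ((Polynomial.aeval M.x : K[X] →ₐ[K] F).toRingHom.comp
        (Polynomial.mapRingHom M.A.subtype)) := by
    apply Polynomial.ringHom_ext
    · intro a
      simp [evO]
    · simp [evO]
  exact congrArg (fun φ : Polynomial M.A →+* F => φ P) h

lemma rho_evO (P : Polynomial M.A) :
    M.rho (M.evO P) = Polynomial.aeval M.xbar (P.map M.res) := by
  have h : (M.rho.comp M.evO : Polynomial M.A →+* Fk) =
      ((Polynomial.aeval M.xbar : k[X] →ₐ[k] Fk).toRingHom.comp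
        (Polynomial.mapRingHom M.res)) := by
    apply Polynomial.ringHom_ext
    · intro a
      simp [evO, rho_incl]
    · simp [evO, RedModel.xbar]
  exact congrArg (fun φ : Polynomial M.A →+* Fk => φ P) h

/-- `O ∩ K = A`. -/
lemma mem_A_of_mem_O {c : K} (hc : algebraMap K F c ∈ M.O) : c ∈ M.A := by
  rcases M.A.mem_or_inv_mem c with h | h
  · exact h
  · by_contra hcA
    have hc0 : c ≠ 0 := fun h0 => hcA (h0 ▸ M.A.zero_mem)
    have hnu : ¬ IsUnit (⟨c⁻¹, h⟩ : M.A) := by
      intro hu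
      obtain ⟨u, hu⟩ := hu
      apply hcA
      have h1 : ((u⁻¹ : M.Aˣ) : M.A) * (⟨c⁻¹, h⟩ : M.A) = 1 := by
        rw [← hu]; simp
      have h2 : (((u⁻¹ : M.Aˣ) : M.A) : K) * c⁻¹ = 1 := by
        have := congrArg (fun a : M.A => (a : K)) h1
        simpa using this
      have h3 : (((u⁻¹ : M.Aˣ) : M.A) : K) = c := by
        field_simp at h2
        exact h2
      rw [← h3]
      exact ((u⁻¹ : M.Aˣ) : M.A).2
    have hres : M.res ⟨c⁻¹, h⟩ = 0 := (M.res_eq_zero _).mpr hnu
    have hrho : M.rho (M.incl ⟨c⁻¹, h⟩) = 0 := by rw [rho_incl, hres, map_zero]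
    have hnu' : ¬ IsUnit (M.incl ⟨c⁻¹, h⟩) := (M.rho_eq_zero _).mp hrho
    apply hnu'
    refine IsUnit.of_mul_eq_one (⟨algebraMap K F c, hc⟩ : M.O) ?_
    ext
    simp only [MulMemClass.coe_mul, coe_incl, OneMemClass.coe_one]
    rw [← map_mul, inv_mul_cancel₀ hc0, map_one]

/-- A polynomial over `A` with nonzero reduction takes a unit value at `x`. -/
lemma isUnit_evO {P : Polynomial M.A} (hP : P.map M.res ≠ 0) : IsUnit (M.evO P) := by
  by_contra hnu
  have h0 : M.rho (M.evO P) = 0 := (M.rho_eq_zero _).mpr hnu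
  rw [rho_evO] at h0
  exact hP ((transcendental_iff.mp M.x_trans) _ h0)

/-- Gauss lemma: a nonzero polynomial over `K` is a constant times a polynomial over `A` with
nonzero reduction. -/
lemma exists_primitive (P : K[X]) (hP : P ≠ 0) :
    ∃ c : K, c ≠ 0 ∧ ∃ P₀ : Polynomial M.A, P = Polynomial.C c * P₀.map M.A.subtype ∧
      P₀.map M.res ≠ 0 := by
  have hne : P.support.Nonempty := Polynomial.support_nonempty.mpr hP
  obtain ⟨i₀, hi₀, hmax⟩ := Finset.exists_max_image P.support
    (fun i => M.A.valuation (P.coeff i)) hne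
  set c := P.coeff i₀ with hc
  have hc0 : c ≠ 0 := Polynomial.mem_support_iff.mp hi₀
  have hcoeff : ∀ i, c⁻¹ * P.coeff i ∈ M.A := by
    intro i
    by_cases hi : i ∈ P.support
    · rw [← ValuationSubring.valuation_le_one_iff, map_mul, map_inv₀]
      have h1 := hmax i hi
      have hv0 : M.A.valuation c ≠ 0 := (Valuation.ne_zero_iff _).mpr hc0
      rw [inv_mul_le_iff₀ (zero_lt_iff.mpr hv0), mul_one]
      exact h1
    · rw [Polynomial.notMem_support_iff.mp hi, mul_zero]
      exact M.A.zero_mem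
  have hlift : Polynomial.C c⁻¹ * P ∈ Polynomial.lifts M.A.subtype := by
    rw [Polynomial.lifts_iff_coeff_lifts]
    intro i
    rw [Polynomial.coeff_C_mul]
    exact ⟨⟨_, hcoeff i⟩, rfl⟩
  obtain ⟨P₀, hP₀⟩ := hlift
  refine ⟨c, hc0, P₀, ?_, ?_⟩
  · rw [show (Polynomial.map M.A.subtype P₀) = Polynomial.C c⁻¹ * P from hP₀, ← mul_assoc,
      ← Polynomial.C_mul, mul_inv_cancel₀ hc0, Polynomial.C_1, one_mul]
  · intro h0
    have h1 : (P₀.coeff i₀ : K) = 1 := by
      have := congrArg (fun Q : K[X] => Q.coeff i₀) hP₀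
      simp only [Polynomial.coeff_C_mul] at this
      have h2 : (Polynomial.map M.A.subtype P₀).coeff i₀ = (P₀.coeff i₀ : K) := by
        simp [Polynomial.coeff_map]
      rw [← h2]
      change (Polynomial.mapRingHom M.A.subtype P₀).coeff i₀ = 1
      rw [this, ← hc, inv_mul_cancel₀ hc0]
    have h3 : P₀.coeff i₀ = 1 := by
      ext
      simpa using h1
    have h4 := congrArg (fun Q : k[X] => Q.coeff i₀) h0
    simp only [Polynomial.coeff_map, h3, map_one, Polynomial.coeff_zero] at h4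
    exact one_ne_zero h4

/-- `x` is transcendental over `K`. -/
lemma x_transcendental : Transcendental K M.x := by
  rw [transcendental_iff]
  intro P hP
  by_contra hP0
  obtain ⟨c, hc0, P₀, hPP₀, hred⟩ := M.exists_primitive P hP0
  have hu := M.isUnit_evO hred
  have h0 : ((M.evO P₀ : M.O) : F) = 0 := by
    rw [coe_evO]
    rw [hPP₀, map_mul, Polynomial.aeval_C] at hP
    rcases mul_eq_zero.mp hP with h | h
    · exact absurd ((map_eq_zero _).mp h) hc0
    · exact h
  have : M.evO P₀ = 0 := by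
    ext
    simpa using h0
  rw [this] at hu
  exact not_isUnit_zero hu

/-! ### The reduction of `O ∩ K(x)` lies in `k(x̄)` -/

lemma aeval_xbar_mem_adjoin (P : k[X]) : Polynomial.aeval M.xbar P ∈ k⟮M.xbar⟯ :=
  (IntermediateField.mem_adjoin_simple_iff k _).mpr ⟨P, 1, by simp⟩

/-- The reduction of an element of `O ∩ K(x)` lies in `k(x̄)`. -/
lemma rho_mem_adjoin {g : F} (hg : g ∈ K⟮M.x⟯) (hgO : g ∈ M.O) :
    M.rho ⟨g, hgO⟩ ∈ k⟮M.xbar⟯ := by
  obtain ⟨r, s, hrs⟩ := (IntermediateField.mem_adjoin_simple_iff K _).mp hg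
  by_cases hs : Polynomial.aeval M.x s = 0
  · have : (⟨g, hgO⟩ : M.O) = 0 := by
      ext
      simp [hrs, hs]
    rw [this, map_zero]
    exact zero_mem _
  by_cases hr : r = 0
  · have : (⟨g, hgO⟩ : M.O) = 0 := by
      ext
      simp [hrs, hr]
    rw [this, map_zero]
    exact zero_mem _
  have hs0 : s ≠ 0 := by
    rintro rfl
    simp at hs
  obtain ⟨c₁, hc₁, r₀, hr₀, hr₀'⟩ := M.exists_primitive r hr
  obtain ⟨c₂, hc₂, s₀, hs₀, hs₀'⟩ := M.exists_primitive s hs0
  have hur := M.isUnit_evO hr₀'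
  have hus := M.isUnit_evO hs₀'
  have her : Polynomial.aeval M.x r = algebraMap K F c₁ * ((M.evO r₀ : M.O) : F) := by
    rw [coe_evO]
    conv_lhs => rw [hr₀]
    rw [map_mul, Polynomial.aeval_C]
  have hes : Polynomial.aeval M.x s = algebraMap K F c₂ * ((M.evO s₀ : M.O) : F) := by
    rw [coe_evO]
    conv_lhs => rw [hs₀]
    rw [map_mul, Polynomial.aeval_C]
  have hur0 : ((M.evO r₀ : M.O) : F) ≠ 0 := by
    intro h
    have : M.evO r₀ = 0 := by ext; simpa using h
    rw [this] at hur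
    exact not_isUnit_zero hur
  have hus0 : ((M.evO s₀ : M.O) : F) ≠ 0 := by
    intro h
    have : M.evO s₀ = 0 := by ext; simpa using h
    rw [this] at hus
    exact not_isUnit_zero hus
  have hc₂F : algebraMap K F c₂ ≠ 0 := (_root_.map_ne_zero _).mpr hc₂
  -- `c = c₁ / c₂ ∈ A`
  have hcO : algebraMap K F (c₁ / c₂) ∈ M.O := by
    obtain ⟨ur, hur'⟩ := hur
    have e1 : algebraMap K F (c₁ / c₂) =
        g * ((M.evO s₀ : M.O) : F) * (((ur⁻¹ : M.Oˣ) : M.O) : F) := by
      have h1 : ((ur : M.O) : F) * (((ur⁻¹ : M.Oˣ) : M.O) : F) = 1 := by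
        have h0 : (ur : M.O) * ((ur⁻¹ : M.Oˣ) : M.O) = 1 := by simp
        have h0' := congrArg (fun a : M.O => (a : F)) h0
        simp only [MulMemClass.coe_mul, OneMemClass.coe_one] at h0'
        exact h0'
      rw [hur'] at h1
      have h2 : (((ur⁻¹ : M.Oˣ) : M.O) : F) = (((M.evO r₀ : M.O) : F))⁻¹ :=
        eq_inv_of_mul_eq_one_right h1
      rw [h2, hrs, her, hes, map_div₀]
      field_simp
    rw [e1]
    exact M.O.mul_mem _ _ (M.O.mul_mem _ _ hgO (M.evO s₀).2) ((ur⁻¹ : M.Oˣ) : M.O).2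
  have hcA : c₁ / c₂ ∈ M.A := M.mem_A_of_mem_O hcO
  have hid : (⟨g, hgO⟩ : M.O) * M.evO s₀ = M.incl ⟨c₁ / c₂, hcA⟩ * M.evO r₀ := by
    ext
    simp only [MulMemClass.coe_mul, coe_incl]
    rw [hrs, her, hes, map_div₀]
    field_simp
  have hid' := congrArg M.rho hid
  rw [map_mul, map_mul, rho_evO, rho_evO, rho_incl] at hid'
  have hsne : Polynomial.aeval M.xbar (s₀.map M.res) ≠ 0 := by
    intro h
    exact hs₀' ((transcendental_iff.mp M.x_trans) _ h)
  have hfinal : M.rho ⟨g, hgO⟩ = algebraMap k Fk (M.res ⟨c₁ / c₂, hcA⟩) *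
      Polynomial.aeval M.xbar (r₀.map M.res) / Polynomial.aeval M.xbar (s₀.map M.res) := by
    rw [eq_div_iff hsne]
    exact hid'
  rw [hfinal]
  exact div_mem (mul_mem (IntermediateField.algebraMap_mem _ _) (M.aeval_xbar_mem_adjoin _))
    (M.aeval_xbar_mem_adjoin _)

/-! ### Lifting a basis of `Fk / k(x̄)` -/

/-- Among finitely many elements of `F`, not all zero, one has maximal valuation. -/
lemma exists_max_val {ι : Type*} [Fintype ι] (g : ι → F) (j : ι) (hj : g j ≠ 0) :
    ∃ i₀, g i₀ ≠ 0 ∧ ∀ i, M.O.valuation (g i) ≤ M.O.valuation (g i₀) := by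
  obtain ⟨i₀, -, hmax⟩ := Finset.exists_max_image Finset.univ
    (fun i => M.O.valuation (g i)) ⟨j, Finset.mem_univ j⟩
  refine ⟨i₀, ?_, fun i => hmax i (Finset.mem_univ i)⟩
  intro h0
  have h1 := hmax j (Finset.mem_univ j)
  rw [h0, map_zero] at h1
  exact hj ((Valuation.zero_iff _).mp (le_zero_iff.mp h1))

lemma rho_eq_zero_of_val_lt {a : M.O} (h : M.O.valuation (a : F) < 1) : M.rho a = 0 := by
  rw [M.rho_eq_zero]
  intro hu
  rw [ValuationSubring.valuation_eq_one_iff] at hu
  exact h.ne hu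

variable {n : ℕ} (wO : Fin n → M.O)

/-- If the `ρ (w i)` are linearly independent over `k(x̄)` and `∑ h i * w i` reduces to `0`
with `h i ∈ O ∩ K(x)`, then all `h i` reduce to `0`. -/
lemma rho_coeff_eq_zero (hind : LinearIndependent k⟮M.xbar⟯ (fun i => M.rho (wO i)))
    (hO : Fin n → M.O) (hE : ∀ i, ((hO i : M.O) : F) ∈ K⟮M.x⟯)
    (hsum : M.rho (∑ i, hO i * wO i) = 0) : ∀ i, M.rho (hO i) = 0 := by
  rw [map_sum] at hsum
  simp only [map_mul] at hsum
  let c : Fin n → k⟮M.xbar⟯ := fun i => ⟨M.rho (hO i), M.rho_mem_adjoin (hE i) (hO i).2⟩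
  have hc : ∑ i, c i • M.rho (wO i) = 0 := by
    rw [← hsum]
    refine Finset.sum_congr rfl fun i _ => ?_
    rw [IntermediateField.smul_def]
    rfl
  intro i
  have := Fintype.linearIndependent_iff.mp hind c hc i
  exact congrArg (fun z : k⟮M.xbar⟯ => (z : Fk)) this

/-- Scaling a family by an element of maximal valuation. -/
lemma exists_scaled (g : Fin n → K⟮M.x⟯) (i₀ : Fin n) (h0 : (g i₀ : F) ≠ 0)
    (hmax : ∀ i, M.O.valuation (g i : F) ≤ M.O.valuation (g i₀ : F)) :
    ∃ hO : Fin n → M.O, (∀ i, ((hO i : M.O) : F) = (g i : F) / (g i₀ : F)) ∧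
      (∀ i, ((hO i : M.O) : F) ∈ K⟮M.x⟯) ∧ hO i₀ = 1 := by
  have hmem : ∀ i, (g i : F) / (g i₀ : F) ∈ M.O := by
    intro i
    rw [← ValuationSubring.valuation_le_one_iff, map_div₀]
    have hv0 : M.O.valuation (g i₀ : F) ≠ 0 := (Valuation.ne_zero_iff _).mpr h0
    rw [div_le_iff₀ (zero_lt_iff.mpr hv0), one_mul]
    exact hmax i
  refine ⟨fun i => ⟨_, hmem i⟩, fun i => rfl, fun i => ?_, ?_⟩
  · exact div_mem (g i).2 (g i₀).2
  · ext
    simp [div_self h0]

/-- (T1) Lifts of a `k(x̄)`-linearly independent family are `K(x)`-linearly independent. -/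
lemma linearIndependent_lift (hind : LinearIndependent k⟮M.xbar⟯ (fun i => M.rho (wO i))) :
    LinearIndependent K⟮M.x⟯ (fun i => ((wO i : M.O) : F)) := by
  rw [Fintype.linearIndependent_iff]
  intro g hg
  by_contra hne
  push Not at hne
  obtain ⟨j, hj⟩ := hne
  have hj' : (g j : F) ≠ 0 := fun h => hj (by ext; simpa using h)
  obtain ⟨i₀, hi₀, hmax⟩ := M.exists_max_val (fun i => (g i : F)) j hj'
  obtain ⟨hO, hOeq, hOE, hO1⟩ := M.exists_scaled g i₀ hi₀ hmax
  have hsum0 : ∑ i, hO i * wO i = 0 := by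
    ext
    simp only [AddSubmonoidClass.coe_finsetSum, MulMemClass.coe_mul, ZeroMemClass.coe_zero, hOeq]
    have : ∑ i, (g i : F) / (g i₀ : F) * ((wO i : M.O) : F) =
        (g i₀ : F)⁻¹ * ∑ i, g i • ((wO i : M.O) : F) := by
      rw [Finset.mul_sum]
      refine Finset.sum_congr rfl fun i _ => ?_
      rw [IntermediateField.smul_def]
      simp only [smul_eq_mul]
      ring
    rw [this, hg, mul_zero]
  have h1 := M.rho_coeff_eq_zero wO hind hO hOE (by rw [hsum0, map_zero]) i₀
  rw [hO1, map_one] at h1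
  exact one_ne_zero h1

/-- (T2) The coordinates of an element of `O` with respect to the lifted family lie in `O`. -/
lemma coord_mem_O (hind : LinearIndependent k⟮M.xbar⟯ (fun i => M.rho (wO i)))
    (g : Fin n → K⟮M.x⟯) (y : M.O) (hy : (y : F) = ∑ i, g i • ((wO i : M.O) : F)) :
    ∀ i, (g i : F) ∈ M.O := by
  by_contra hne
  push Not at hne
  obtain ⟨j, hj⟩ := hne
  have hj' : (g j : F) ≠ 0 := fun h => hj (h ▸ M.O.zero_mem)
  obtain ⟨i₀, hi₀, hmax⟩ := M.exists_max_val (fun i => (g i : F)) j hj'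
  obtain ⟨hO, hOeq, hOE, hO1⟩ := M.exists_scaled g i₀ hi₀ hmax
  have hvj : 1 < M.O.valuation (g j : F) := by
    rw [← not_le, ValuationSubring.valuation_le_one_iff]
    exact hj
  have hv0 : 1 < M.O.valuation (g i₀ : F) := lt_of_lt_of_le hvj (hmax j)
  have hsum : ((∑ i, hO i * wO i : M.O) : F) = (y : F) / (g i₀ : F) := by
    simp only [AddSubmonoidClass.coe_finsetSum, MulMemClass.coe_mul, hOeq]
    rw [hy, div_eq_inv_mul, Finset.mul_sum]
    refine Finset.sum_congr rfl fun i _ => ?_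
    rw [IntermediateField.smul_def]
    simp only [smul_eq_mul]
    ring
  have hlt : M.O.valuation ((∑ i, hO i * wO i : M.O) : F) < 1 := by
    rw [hsum, map_div₀]
    have hvy : M.O.valuation (y : F) ≤ 1 := (ValuationSubring.valuation_le_one_iff _ _).mpr y.2
    have hpos : 0 < M.O.valuation (g i₀ : F) := lt_trans zero_lt_one hv0
    rw [div_lt_iff₀ hpos, one_mul]
    exact lt_of_le_of_lt hvy hv0
  have h1 := M.rho_coeff_eq_zero wO hind hO hOE (M.rho_eq_zero_of_val_lt hlt) i₀
  rw [hO1, map_one] at h1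
  exact one_ne_zero h1

/-- (T2') ... and they reduce to the coordinates of the reduction. -/
lemma rho_eq_sum (hind : LinearIndependent k⟮M.xbar⟯ (fun i => M.rho (wO i)))
    (g : Fin n → K⟮M.x⟯) (y : M.O) (hy : (y : F) = ∑ i, g i • ((wO i : M.O) : F)) :
    M.rho y = ∑ i, M.rho ⟨(g i : F), M.coord_mem_O wO hind g y hy i⟩ * M.rho (wO i) := by
  have : y = ∑ i, (⟨(g i : F), M.coord_mem_O wO hind g y hy i⟩ : M.O) * wO i := by
    ext
    simp only [AddSubmonoidClass.coe_finsetSum, MulMemClass.coe_mul]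
    rw [hy]
    refine Finset.sum_congr rfl fun i _ => ?_
    rw [IntermediateField.smul_def]
    rfl
  conv_lhs => rw [this]
  rw [map_sum]
  simp only [map_mul]

/-! ### The graph of the reduction map on `O ∩ K(x)` and reduction of matrices -/

/-- The graph of the reduction map `O ∩ K(x) → k(x̄)`, as a subring of `K(x) × k(x̄)`. -/
def graphRing : Subring (K⟮M.x⟯ × k⟮M.xbar⟯) where
  carrier := {z | ∃ h : (z.1 : F) ∈ M.O, M.rho ⟨(z.1 : F), h⟩ = (z.2 : Fk)}
  mul_mem' := by
    rintro a b ⟨ha, ha'⟩ ⟨hb, hb'⟩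
    refine ⟨by simpa using M.O.mul_mem _ _ ha hb, ?_⟩
    have : (⟨((a * b).1 : F), by simpa using M.O.mul_mem _ _ ha hb⟩ : M.O) =
        ⟨(a.1 : F), ha⟩ * ⟨(b.1 : F), hb⟩ := by
      ext; simp
    rw [this, map_mul, ha', hb']
    simp
  one_mem' := by
    refine ⟨by simpa using M.O.one_mem, ?_⟩
    have : (⟨(((1 : K⟮M.x⟯ × k⟮M.xbar⟯)).1 : F), by simpa using M.O.one_mem⟩ : M.O) = 1 := by
      ext; simp
    rw [this, map_one]
    simp
  add_mem' := by
    rintro a b ⟨ha, ha'⟩ ⟨hb, hb'⟩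
    refine ⟨by simpa using M.O.add_mem _ _ ha hb, ?_⟩
    have : (⟨((a + b).1 : F), by simpa using M.O.add_mem _ _ ha hb⟩ : M.O) =
        ⟨(a.1 : F), ha⟩ + ⟨(b.1 : F), hb⟩ := by
      ext; simp
    rw [this, map_add, ha', hb']
    simp
  zero_mem' := by
    refine ⟨by simpa using M.O.zero_mem, ?_⟩
    have : (⟨(((0 : K⟮M.x⟯ × k⟮M.xbar⟯)).1 : F), by simpa using M.O.zero_mem⟩ : M.O) = 0 := by
      ext; simp
    rw [this, map_zero]
    simp
  neg_mem' := by
    rintro a ⟨ha, ha'⟩
    refine ⟨by simpa using M.O.neg_mem _ ha, ?_⟩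
    have : (⟨((-a).1 : F), by simpa using M.O.neg_mem _ ha⟩ : M.O) = -⟨(a.1 : F), ha⟩ := by
      ext; simp
    rw [this, map_neg, ha']
    simp

lemma mem_graphRing {z : K⟮M.x⟯ × k⟮M.xbar⟯} :
    z ∈ M.graphRing ↔ ∃ h : (z.1 : F) ∈ M.O, M.rho ⟨(z.1 : F), h⟩ = (z.2 : Fk) := Iff.rfl

/-- First projection of the graph. -/
def graphFst : M.graphRing →+* K⟮M.x⟯ := (RingHom.fst _ _).comp M.graphRing.subtype

/-- Second projection of the graph. -/
def graphSnd : M.graphRing →+* k⟮M.xbar⟯ := (RingHom.snd _ _).comp M.graphRing.subtype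

/-- A polynomial over `K(x)` and a polynomial over `k(x̄)` which are the two projections of a
polynomial over the graph: coefficientwise statement. -/
lemma coeff_of_graph (Q : Polynomial M.graphRing) (m : ℕ) :
    ∃ h : (((Q.map M.graphFst).coeff m : K⟮M.x⟯) : F) ∈ M.O,
      M.rho ⟨_, h⟩ = (((Q.map M.graphSnd).coeff m : k⟮M.xbar⟯) : Fk) := by
  have := (Q.coeff m).2
  rw [mem_graphRing] at this
  simpa [Polynomial.coeff_map, graphFst, graphSnd] using this

/-- (T3) The characteristic polynomial of `f ∈ O` on `F / K(x)` and that of `ρ f` on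
`Fk / k(x̄)` are the two projections of one polynomial over the graph of the reduction map. -/
theorem exists_graph_charpoly {n : ℕ} (hD : DegData M n)
    [FiniteDimensional K⟮M.x⟯ F] [FiniteDimensional k⟮M.xbar⟯ Fk] (f : M.O) :
    ∃ Q : Polynomial M.graphRing,
      Q.map M.graphFst = LinearMap.charpoly (LinearMap.mulLeft K⟮M.x⟯ (f : F)) ∧
      Q.map M.graphSnd = LinearMap.charpoly (LinearMap.mulLeft k⟮M.xbar⟯ (M.rho f)) := by
  classical
  have : Nonempty (Fin n) := ⟨⟨0, hD.pos⟩⟩
  let bB : Module.Basis (Fin n) k⟮M.xbar⟯ Fk := Module.finBasisOfFinrankEq _ _ hD.degk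
  choose wO hwO using fun i => M.rho_surj (bB i)
  have hfun : (fun i => M.rho (wO i)) = ⇑bB := funext hwO
  have hind : LinearIndependent k⟮M.xbar⟯ (fun i => M.rho (wO i)) := by
    rw [hfun]
    exact bB.linearIndependent
  have hlin := M.linearIndependent_lift wO hind
  let wB : Module.Basis (Fin n) K⟮M.x⟯ F :=
    basisOfLinearIndependentOfCardEqFinrank hlin (by simp [hD.deg])
  have hwB : ∀ i, wB i = ((wO i : M.O) : F) := fun i => by
    simp [wB, coe_basisOfLinearIndependentOfCardEqFinrank]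
  -- the entries
  have hentry : ∀ i j, ((Algebra.leftMulMatrix wB (f : F) i j,
      Algebra.leftMulMatrix bB (M.rho f) i j) : K⟮M.x⟯ × k⟮M.xbar⟯) ∈ M.graphRing := by
    intro i j
    rw [mem_graphRing]
    simp only [Algebra.leftMulMatrix_eq_repr_mul]
    set y : M.O := f * wO j with hy
    have hyF : (y : F) = ∑ i, (wB.repr ((f : F) * wB j) i) • ((wO i : M.O) : F) := by
      have h1 := wB.sum_repr ((f : F) * wB j)
      simp only [hwB] at h1
      rw [hy, MulMemClass.coe_mul, ← hwB j]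
      simp only [hwB]
      exact h1.symm
    have hmem := M.coord_mem_O wO hind (fun i => wB.repr ((f : F) * wB j) i) y hyF
    refine ⟨hmem i, ?_⟩
    have hsum := M.rho_eq_sum wO hind (fun i => wB.repr ((f : F) * wB j) i) y hyF
    have hy' : M.rho y = M.rho f * bB j := by rw [hy, map_mul, hwO]
    rw [hy'] at hsum
    -- coordinates of `ρ f * bB j`
    let c : Fin n → k⟮M.xbar⟯ := fun i =>
      ⟨M.rho ⟨(wB.repr ((f : F) * wB j) i : F), hmem i⟩,
        M.rho_mem_adjoin (wB.repr ((f : F) * wB j) i).2 (hmem i)⟩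
    have hc : M.rho f * bB j = ∑ i, c i • bB i := by
      rw [hsum]
      refine Finset.sum_congr rfl fun i _ => ?_
      rw [IntermediateField.smul_def, hwO]
      rfl
    have hrepr : bB.repr (M.rho f * bB j) = Finsupp.equivFunOnFinite.symm c := by
      rw [hc]
      apply bB.repr.symm.injective
      rw [LinearEquiv.symm_apply_apply]
      simp [Module.Basis.repr_symm_apply, Finsupp.linearCombination_apply,
        Finsupp.sum_fintype]
    rw [hrepr]
    rfl
  let N : Matrix (Fin n) (Fin n) M.graphRing := fun i j => ⟨_, hentry i j⟩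
  refine ⟨N.charpoly, ?_, ?_⟩
  · rw [← Matrix.charpoly_map]
    have : N.map M.graphFst = Algebra.leftMulMatrix wB (f : F) := by
      ext i j
      rfl
    rw [this, Algebra.leftMulMatrix_apply, LinearMap.charpoly_toMatrix]
    rfl
  · rw [← Matrix.charpoly_map]
    have : N.map M.graphSnd = Algebra.leftMulMatrix bB (M.rho f) := by
      ext i j
      rfl
    rw [this, Algebra.leftMulMatrix_apply, LinearMap.charpoly_toMatrix]
    rfl

/-! ### Integrality: the coefficients of the characteristic polynomial are in `K[x]` -/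

/-- `K[x]` is integrally closed (`x` is transcendental). -/
lemma isIntegrallyClosed_adjoin : IsIntegrallyClosed (Algebra.adjoin K {M.x}) := by
  have hinj : Function.Injective (Polynomial.aeval M.x : K[X] →ₐ[K] F) :=
    transcendental_iff_injective.mp M.x_transcendental
  let e1 : K[X] ≃ₐ[K] (Polynomial.aeval M.x : K[X] →ₐ[K] F).range :=
    AlgEquiv.ofInjective _ hinj
  have hrange : Algebra.adjoin K {M.x} = (Polynomial.aeval M.x : K[X] →ₐ[K] F).range :=
    Algebra.adjoin_singleton_eq_range_aeval K M.x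
  let e2 : (Polynomial.aeval M.x : K[X] →ₐ[K] F).range ≃ₐ[K] Algebra.adjoin K {M.x} :=
    Subalgebra.equivOfEq _ _ hrange.symm
  exact IsIntegrallyClosed.of_equiv (e1.trans e2).toRingEquiv

/-- The values of the characteristic polynomial of an integral `f` at constants are in `K[x]`. -/
lemma eval_charpoly_mem_range [FiniteDimensional K⟮M.x⟯ F] {f : F} (hf : f ∈ intCl K M.x)
    (t : K) :
    (LinearMap.charpoly (LinearMap.mulLeft K⟮M.x⟯ f)).eval (algebraMap K K⟮M.x⟯ t) ∈
      Set.range (algebraMap (Algebra.adjoin K {M.x}) K⟮M.x⟯) := by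
  have := M.isIntegrallyClosed_adjoin
  have hfint : IsIntegral (Algebra.adjoin K {M.x}) f := hf
  have htint : IsIntegral (Algebra.adjoin K {M.x}) (algebraMap K F t) := by
    have : algebraMap K F t = algebraMap (Algebra.adjoin K {M.x}) F
        (algebraMap K (Algebra.adjoin K {M.x}) t) := rfl
    rw [this]
    exact isIntegral_algebraMap
  have hint := Algebra.isIntegral_norm K⟮M.x⟯ (htint.sub hfint)
  have heq : Algebra.norm K⟮M.x⟯ (algebraMap K F t - f) =
      (LinearMap.charpoly (LinearMap.mulLeft K⟮M.x⟯ f)).eval (algebraMap K K⟮M.x⟯ t) := by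
    rw [LinearMap.eval_charpoly, Algebra.norm_apply]
    congr 1
    ext y
    simp [Algebra.smul_def]
  rw [heq] at hint
  obtain ⟨y, hy⟩ := IsIntegrallyClosed.isIntegral_iff.mp hint
  exact ⟨y, hy⟩

/-- A polynomial over `K(x)` all of whose values at constants lie in `K[x]` has coefficients in
`K[x]` (Lagrange interpolation; `K` infinite). -/
lemma coeff_mem_range_of_eval [Infinite K] (Q : Polynomial K⟮M.x⟯)
    (hQ : ∀ t : K, Q.eval (algebraMap K K⟮M.x⟯ t) ∈
      Set.range (algebraMap (Algebra.adjoin K {M.x}) K⟮M.x⟯)) (m : ℕ) :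
    Q.coeff m ∈ Set.range (algebraMap (Algebra.adjoin K {M.x}) K⟮M.x⟯) := by
  classical
  set φ : Algebra.adjoin K {M.x} →+* K⟮M.x⟯ := algebraMap _ _ with hφ
  suffices h : Q ∈ Polynomial.lifts φ from (Polynomial.lifts_iff_coeff_lifts Q).mp h m
  let t : Fin (Q.natDegree + 1) → K := fun i => Infinite.natEmbedding K i.val
  have htinj : Function.Injective t := fun i j h =>
    Fin.ext ((Infinite.natEmbedding K).injective h)
  let v : Fin (Q.natDegree + 1) → K⟮M.x⟯ := fun i => algebraMap K K⟮M.x⟯ (t i)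
  have hvinj : Function.Injective v := (algebraMap K K⟮M.x⟯).injective.comp htinj
  have hK : ∀ a : K, algebraMap K K⟮M.x⟯ a ∈ Set.range φ := fun a =>
    ⟨algebraMap K (Algebra.adjoin K {M.x}) a, rfl⟩
  have hdeg : Q.degree < (Finset.univ : Finset (Fin (Q.natDegree + 1))).card := by
    rw [Finset.card_univ, Fintype.card_fin]
    exact lt_of_le_of_lt Polynomial.degree_le_natDegree (by exact_mod_cast Nat.lt_succ_self _)
  have hQeq := Lagrange.eq_interpolate (s := Finset.univ) (v := v) (f := Q)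
    (hvinj.injOn) hdeg
  rw [Lagrange.interpolate_apply] at hQeq
  rw [hQeq]
  refine Subsemiring.sum_mem _ fun i _ => ?_
  refine Subsemiring.mul_mem _ ?_ ?_
  · obtain ⟨y, hy⟩ := hQ (t i)
    rw [show Polynomial.eval (v i) Q = φ y from hy.symm]
    exact Polynomial.C_mem_lifts φ y
  · rw [Lagrange.basis]
    refine Subsemiring.prod_mem _ fun j _ => ?_
    rw [Lagrange.basisDivisor]
    refine Subsemiring.mul_mem _ ?_ ?_
    · have : (v i - v j)⁻¹ = algebraMap K K⟮M.x⟯ ((t i - t j)⁻¹) := by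
        simp [v, map_inv₀, map_sub]
      rw [this]
      obtain ⟨y, hy⟩ := hK ((t i - t j)⁻¹)
      rw [← hy]
      exact Polynomial.C_mem_lifts φ y
    · obtain ⟨y, hy⟩ := hK (t j)
      have : (Polynomial.X - Polynomial.C (v j) : Polynomial K⟮M.x⟯) =
          Polynomial.map φ (Polynomial.X - Polynomial.C y) := by
        simp [hy, v]
      rw [this]
      exact ⟨_, rfl⟩

/-- (T5a) The coefficients of the characteristic polynomial of an integral `f` are of the form
`P(x)`, `P ∈ K[X]`. -/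
lemma exists_poly_coeff_charpoly [Infinite K] [FiniteDimensional K⟮M.x⟯ F] {f : F}
    (hf : f ∈ intCl K M.x) (m : ℕ) :
    ∃ P : K[X], Polynomial.aeval M.x P =
      (((LinearMap.charpoly (LinearMap.mulLeft K⟮M.x⟯ f)).coeff m : K⟮M.x⟯) : F) := by
  obtain ⟨y, hy⟩ := M.coeff_mem_range_of_eval _ (fun t => M.eval_charpoly_mem_range hf t) m
  have hyr : (y : F) ∈ (Polynomial.aeval M.x : K[X] →ₐ[K] F).range := by
    rw [← Algebra.adjoin_singleton_eq_range_aeval]
    exact y.2
  obtain ⟨P, hP⟩ := hyr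
  refine ⟨P, ?_⟩
  rw [← hy]
  exact hP

/-- (T4) Gauss lemma: a polynomial expression `P(x) ∈ O` has coefficients in `A`. -/
lemma exists_polyA (P : K[X]) (hO : Polynomial.aeval M.x P ∈ M.O) :
    ∃ PA : Polynomial M.A, PA.map M.A.subtype = P := by
  by_cases hP : P = 0
  · exact ⟨0, by simp [hP]⟩
  obtain ⟨c, hc0, P₀, hPP₀, hred⟩ := M.exists_primitive P hP
  obtain ⟨u, hu⟩ := M.isUnit_evO hred
  have hcO : algebraMap K F c ∈ M.O := by
    have h1 : ((u : M.O) : F) * (((u⁻¹ : M.Oˣ) : M.O) : F) = 1 := by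
      have h0 : (u : M.O) * ((u⁻¹ : M.Oˣ) : M.O) = 1 := by simp
      have h0' := congrArg (fun a : M.O => (a : F)) h0
      simp only [MulMemClass.coe_mul, OneMemClass.coe_one] at h0'
      exact h0'
    have h2 : Polynomial.aeval M.x P = algebraMap K F c * ((u : M.O) : F) := by
      rw [hu, coe_evO]
      conv_lhs => rw [hPP₀]
      rw [map_mul, Polynomial.aeval_C]
    have h3 : algebraMap K F c = Polynomial.aeval M.x P * (((u⁻¹ : M.Oˣ) : M.O) : F) := by
      rw [h2, mul_assoc, h1, mul_one]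
    rw [h3]
    exact M.O.mul_mem _ _ hO ((u⁻¹ : M.Oˣ) : M.O).2
  have hcA := M.mem_A_of_mem_O hcO
  refine ⟨Polynomial.C ⟨c, hcA⟩ * P₀, ?_⟩
  rw [Polynomial.map_mul, Polynomial.map_C]
  exact hPP₀.symm

end RedModel

/-- Two monic polynomials of the same degree whose coefficients are simultaneously liftable
along `φ₁`, `φ₂` are the images of one monic polynomial. -/
lemma exists_monic_lift_pair {R S₁ S₂ : Type*} [CommRing R] [CommRing S₁] [CommRing S₂]
    (φ₁ : R →+* S₁) (φ₂ : R →+* S₂) (p₁ : Polynomial S₁) (p₂ : Polynomial S₂) (n : ℕ)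
    (h₁ : p₁.Monic) (h₂ : p₂.Monic) (hn₁ : p₁.natDegree = n) (hn₂ : p₂.natDegree = n)
    (hc : ∀ m, ∃ r : R, φ₁ r = p₁.coeff m ∧ φ₂ r = p₂.coeff m) :
    ∃ Φ : Polynomial R, Φ.Monic ∧ Φ.map φ₁ = p₁ ∧ Φ.map φ₂ = p₂ := by
  choose r hr₁ hr₂ using hc
  have hdeg : (∑ i ∈ Finset.range n, Polynomial.C (r i) * Polynomial.X ^ i).degree <
      (n : WithBot ℕ) := by
    refine (Polynomial.degree_sum_le _ _).trans_lt ?_
    refine (Finset.sup_lt_iff (WithBot.bot_lt_coe n)).mpr ?_
    intro i hi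
    exact (Polynomial.degree_C_mul_X_pow_le i (r i)).trans_lt
      (WithBot.coe_lt_coe.mpr (Finset.mem_range.mp hi))
  refine ⟨Polynomial.X ^ n + ∑ i ∈ Finset.range n, Polynomial.C (r i) * Polynomial.X ^ i,
    Polynomial.monic_X_pow_add hdeg, ?_, ?_⟩
  · conv_rhs => rw [h₁.as_sum, hn₁]
    simp only [Polynomial.map_add, Polynomial.map_pow, Polynomial.map_X, Polynomial.map_sum,
      Polynomial.map_mul, Polynomial.map_C, hr₁]
  · conv_rhs => rw [h₂.as_sum, hn₂]
    simp only [Polynomial.map_add, Polynomial.map_pow, Polynomial.map_X, Polynomial.map_sum,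
      Polynomial.map_mul, Polynomial.map_C, hr₂]

/-- **(T) Charpoly reduction.**  For `f ∈ O` integral over `K[x]`, the characteristic polynomial
of `f` on `F / K(x)` has coefficients in `A[x]` and reduces to the characteristic polynomial of
`ρ f` on `Fk / k(x̄)`. -/
theorem charpolyRed [Infinite K] (M : RedModel K k F Fk) (n : ℕ) (hD : DegData M n) :
    CharpolyRed M := by
  intro _ _ f hf
  obtain ⟨Q, hQ1, hQ2⟩ := M.exists_graph_charpoly hD f
  refine exists_monic_lift_pair _ _ _ _ n (LinearMap.charpoly_monic _) (LinearMap.charpoly_monic _)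
    ?_ ?_ ?_
  · rw [LinearMap.charpoly_natDegree, hD.deg]
  · rw [LinearMap.charpoly_natDegree, hD.degk]
  · intro m
    obtain ⟨hO, hrho⟩ := M.coeff_of_graph Q m
    rw [hQ1] at hO
    simp only [hQ1, hQ2] at hrho
    obtain ⟨P, hP⟩ := M.exists_poly_coeff_charpoly hf m
    obtain ⟨PA, hPA⟩ := M.exists_polyA P (by rw [hP]; exact hO)
    have hev : M.evO PA = ⟨_, hO⟩ := by
      ext
      rw [RedModel.coe_evO, hPA, hP]
    refine ⟨PA, ?_, ?_⟩
    · apply Subtype.ext
      simp only [RingHom.coe_comp, AlgHom.toRingHom_eq_coe, RingHom.coe_coe, Function.comp_apply,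
        Polynomial.coe_mapRingHom]
      rw [← hP, ← hPA]
      have := Polynomial.aeval_algebraMap_apply (A := K⟮M.x⟯) F
        (⟨M.x, mem_adjoin_simple_self K M.x⟩ : K⟮M.x⟯) (PA.map M.A.subtype)
      exact this.symm
    · apply Subtype.ext
      simp only [RingHom.coe_comp, AlgHom.toRingHom_eq_coe, RingHom.coe_coe, Function.comp_apply,
        Polynomial.coe_mapRingHom]
      rw [← hrho, ← hev, RedModel.rho_evO]
      have := Polynomial.aeval_algebraMap_apply (A := k⟮M.xbar⟯) Fk
        (⟨M.xbar, mem_adjoin_simple_self k M.xbar⟩ : k⟮M.xbar⟯) (PA.map M.res)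
      exact this.symm

end

end Fermat.Agent.S27GR
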